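import Mathlib

/-!
# General Carayol rigidity, matrix core (helper716)

`A` a local ring (no hypothesis on `2`), `G` a monoid, `m₁ m₂ : G →* Matrix ι ι A` with the same
traces, and the `A`-span of `m₁ G` is everything (Burnside for the residual representation).
Then `m₁` and `m₂` are conjugate by an invertible matrix.

* `ofDual716`, `trace_ofDual716_mul` : the trace form on `Matrix ι ι A` is perfect;
* `exists_linearEquiv_of_trace_eq716` : the linear automorphism `Φ` with `Φ (m₁ g) = m₂ g`
  (Gram argument: a basis of `Matrix ι ι A` among the `m₁ g`, trace duality, Orzech);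
* `skolemNoether716` : a linear multiplicative unital bijection of `Matrix ι ι A` is inner
  (rank-one operators; a unit entry of some `Φ⁻¹ E_jj` exists because `A` is local);
* `carayol_matrix716` : the theorem.
-/

set_option autoImplicit false
set_option linter.unusedSectionVars false

namespace Fermat.Agent.S59.H716

open Matrix

section Dual

variable {A : Type*} [CommRing A] {ι : Type*} [Fintype ι] [DecidableEq ι]

/-- The matrix representing a linear functional for the trace form. -/
def ofDual716 : Module.Dual A (Matrix ι ι A) →ₗ[A] Matrix ι ι A where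
  toFun φ := Matrix.of fun i j => φ (Matrix.single j i 1)
  map_add' φ ψ := by
    ext i j
    simp
  map_smul' c φ := by
    ext i j
    simp

theorem ofDual716_apply (φ : Module.Dual A (Matrix ι ι A)) (i j : ι) :
    ofDual716 φ i j = φ (Matrix.single j i 1) := rfl

/-- The trace form is perfect: every functional is `Z ↦ tr (X Z)`. -/
theorem trace_ofDual716_mul (φ : Module.Dual A (Matrix ι ι A)) (Z : Matrix ι ι A) :
    (ofDual716 φ * Z).trace = φ Z := by
  conv_rhs => rw [Matrix.matrix_eq_sum_single Z]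
  simp only [Matrix.trace, Matrix.diag_apply, Matrix.mul_apply, ofDual716_apply, map_sum]
  rw [Finset.sum_comm]
  refine Finset.sum_congr rfl fun j _ => Finset.sum_congr rfl fun i _ => ?_
  have h : (Matrix.single j i (Z j i) : Matrix ι ι A) = Z j i • Matrix.single j i 1 := by
    rw [Matrix.smul_single, smul_eq_mul, mul_one]
  rw [h, map_smul, smul_eq_mul, mul_comm]

end Dual

section Gram

variable {G : Type} [Monoid G] {A : Type} [CommRing A] [IsLocalRing A]
  {ι : Type} [Fintype ι] [DecidableEq ι]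

/-- **Gram argument.** If `m₁`, `m₂` have the same traces and the `m₁ g` span `Matrix ι ι A`,
there is a linear automorphism `Φ` of `Matrix ι ι A` with `Φ (m₁ g) = m₂ g`. -/
theorem exists_linearEquiv_of_trace_eq716 (m₁ m₂ : G →* Matrix ι ι A)
    (htr : ∀ g, (m₁ g).trace = (m₂ g).trace)
    (hspan : Submodule.span A (Set.range m₁) = ⊤) :
    ∃ Φ : Matrix ι ι A ≃ₗ[A] Matrix ι ι A, ∀ g, Φ (m₁ g) = m₂ g := by
  classical
  have hfp : Module.FinitePresentation A (Matrix ι ι A) :=
    Module.finitePresentation_of_projective A (Matrix ι ι A)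
  obtain ⟨κ, a, b, hb⟩ := Module.exists_basis_of_span_of_flat (R := A) (fun g => m₁ g) hspan
  -- the map `Y ↦ (tr (Y m₂(a k)))_k`
  let T₂ : Matrix ι ι A →ₗ[A] (κ → A) :=
    LinearMap.pi fun k => (Matrix.traceLinearMap ι A A) ∘ₗ (LinearMap.mulRight A (m₂ (a k)))
  have hT₂ : ∀ Y k, T₂ Y k = (Y * m₂ (a k)).trace := fun Y k => rfl
  let Ψ : Matrix ι ι A →ₗ[A] Matrix ι ι A :=
    ofDual716 ∘ₗ (b.constr A : (κ → A) ≃ₗ[A] (Matrix ι ι A →ₗ[A] A)).toLinearMap ∘ₗ T₂
  have hΨ : ∀ Y Z, (Ψ Y * Z).trace = (b.constr A (T₂ Y)) Z := fun Y Z =>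
    trace_ofDual716_mul _ Z
  -- `Ψ (m₂ h) = m₁ h`
  have hΨm : ∀ h, Ψ (m₂ h) = m₁ h := by
    intro h
    rw [Matrix.ext_iff_trace_mul_right]
    intro Z
    rw [hΨ]
    have hfun : (b.constr A (T₂ (m₂ h)) : Matrix ι ι A →ₗ[A] A) =
        (Matrix.traceLinearMap ι A A) ∘ₗ (LinearMap.mulLeft A (m₁ h)) := by
      apply b.ext
      intro k
      rw [Module.Basis.constr_basis, hT₂, LinearMap.comp_apply, LinearMap.mulLeft_apply,
        Matrix.traceLinearMap_apply, hb k, ← map_mul, ← map_mul, htr]
    rw [hfun]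
    rfl
  have hsurj : Function.Surjective Ψ := by
    rw [← LinearMap.range_eq_top, eq_top_iff, ← hspan, Submodule.span_le]
    rintro _ ⟨g, rfl⟩
    exact ⟨m₂ g, hΨm g⟩
  have hinj : Function.Injective Ψ :=
    OrzechProperty.injective_of_surjective_endomorphism Ψ hsurj
  have hbij : Function.Bijective Ψ := ⟨hinj, hsurj⟩
  refine ⟨(LinearEquiv.ofBijective Ψ hbij).symm, fun g => ?_⟩
  rw [LinearEquiv.symm_apply_eq]
  exact (hΨm g).symm

/-- The automorphism of the Gram argument is multiplicative and unital. -/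
theorem linearEquiv_mul_of_span716 (m₁ m₂ : G →* Matrix ι ι A)
    (hspan : Submodule.span A (Set.range m₁) = ⊤)
    (Φ : Matrix ι ι A ≃ₗ[A] Matrix ι ι A) (hΦ : ∀ g, Φ (m₁ g) = m₂ g) :
    Φ 1 = 1 ∧ ∀ X Y, Φ (X * Y) = Φ X * Φ Y := by
  refine ⟨by have h := hΦ 1; rwa [m₁.map_one, m₂.map_one] at h, ?_⟩
  have h1 : ∀ (X : Matrix ι ι A) (h : G), Φ (X * m₁ h) = Φ X * m₂ h := by
    intro X h
    have hX : X ∈ Submodule.span A (Set.range m₁) := by rw [hspan]; exact Submodule.mem_top
    induction hX using Submodule.span_induction with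
    | mem x hx =>
      obtain ⟨g, rfl⟩ := hx
      rw [← map_mul, hΦ, hΦ, map_mul]
    | zero => rw [zero_mul, map_zero, zero_mul]
    | add x y _ _ hx hy => rw [add_mul, map_add, hx, hy, map_add, add_mul]
    | smul c x _ hx => rw [smul_mul_assoc, map_smul, hx, map_smul, smul_mul_assoc]
  intro X Y
  have hY : Y ∈ Submodule.span A (Set.range m₁) := by rw [hspan]; exact Submodule.mem_top
  induction hY using Submodule.span_induction with
  | mem y hy =>
    obtain ⟨g, rfl⟩ := hy
    rw [h1, hΦ]
  | zero => rw [mul_zero, map_zero, mul_zero]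
  | add x y _ _ hx hy => rw [mul_add, map_add, hx, hy, map_add, mul_add]
  | smul c x _ hx => rw [mul_smul_comm, map_smul, hx, map_smul, mul_smul_comm]

end Gram

section SkolemNoether

variable {A : Type} [CommRing A] {ι : Type} [Fintype ι] [DecidableEq ι]

/-- `X E_{k i}` is the matrix whose `i`-th column is the `k`-th column of `X`. -/
theorem mul_single716 (X : Matrix ι ι A) (k i : ι) :
    X * Matrix.single k i (1 : A) = ∑ s, X s k • Matrix.single s i (1 : A) := by
  ext a b
  rw [Matrix.sum_apply]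
  by_cases hb : b = i
  · subst hb
    rw [Matrix.mul_single_apply_same, mul_one, Finset.sum_eq_single a]
    · rw [Matrix.smul_apply, Matrix.single_apply_same, smul_eq_mul, mul_one]
    · intro s _ hs
      rw [Matrix.smul_apply, Matrix.single_apply_of_row_ne hs, smul_zero]
    · intro h
      exact absurd (Finset.mem_univ a) h
  · rw [Matrix.mul_single_apply_of_ne _ _ _ _ _ hb]
    refine (Finset.sum_eq_zero fun s _ => ?_).symm
    rw [Matrix.smul_apply, Matrix.single_apply_of_col_ne _ _ (Ne.symm hb), smul_zero]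

variable [IsLocalRing A] [Nonempty ι]

/-- **Skolem–Noether over a local ring**: a linear, multiplicative, unital bijection of
`Matrix ι ι A` is conjugation by an invertible matrix. -/
theorem skolemNoether716 (Φ : Matrix ι ι A ≃ₗ[A] Matrix ι ι A) (hone : Φ 1 = 1)
    (hmul : ∀ X Y, Φ (X * Y) = Φ X * Φ Y) :
    ∃ P Q : Matrix ι ι A, P * Q = 1 ∧ Q * P = 1 ∧ ∀ X, Φ X * P = P * X := by
  classical
  have hmul' : ∀ X Y, Φ.symm (X * Y) = Φ.symm X * Φ.symm Y := by
    intro X Y
    rw [LinearEquiv.symm_apply_eq, hmul, LinearEquiv.apply_symm_apply,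
      LinearEquiv.apply_symm_apply]
  have hone' : Φ.symm 1 = 1 := by rw [LinearEquiv.symm_apply_eq, hone]
  obtain ⟨i⟩ := ‹Nonempty ι›
  -- a unit diagonal entry of some `Φ⁻¹ E_jj`
  have hsum : ∑ j, (Φ.symm (Matrix.single j j (1 : A))) i i = 1 := by
    have h1 : ∑ j, Φ.symm (Matrix.single j j (1 : A)) = 1 := by
      rw [← map_sum, Matrix.sum_single_one, hone']
    have h2 := congrFun (congrFun h1 i) i
    rw [Matrix.sum_apply, Matrix.one_apply_eq] at h2
    exact h2
  obtain ⟨j, hj⟩ : ∃ j, IsUnit ((Φ.symm (Matrix.single j j (1 : A))) i i) := by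
    by_contra hcon
    rw [not_exists] at hcon
    have h1 : (1 : A) ∈ IsLocalRing.maximalIdeal A := by
      rw [← hsum]
      exact Ideal.sum_mem _ fun j _ => (IsLocalRing.mem_maximalIdeal _).mpr (hcon j)
    exact (Ideal.ne_top_iff_one _).mp (IsLocalRing.maximalIdeal.isMaximal A).ne_top h1
  set lam : A := (Φ.symm (Matrix.single j j (1 : A))) i i with hlam
  let P : Matrix ι ι A := Matrix.of fun l k => (Φ (Matrix.single k i (1 : A))) l j
  let Q : Matrix ι ι A := Matrix.of fun k l => (Φ.symm (Matrix.single l j (1 : A))) k i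
  have hPapp : ∀ l k, P l k = (Φ (Matrix.single k i (1 : A))) l j := fun _ _ => rfl
  have hQapp : ∀ k l, Q k l = (Φ.symm (Matrix.single l j (1 : A))) k i := fun _ _ => rfl
  -- intertwining
  have hP : ∀ X, Φ X * P = P * X := by
    intro X
    ext l k
    have h1 : (Φ X * P) l k = (Φ (X * Matrix.single k i (1 : A))) l j := by
      rw [hmul, Matrix.mul_apply, Matrix.mul_apply]
      rfl
    rw [h1, mul_single716, map_sum, Matrix.sum_apply, Matrix.mul_apply]
    refine Finset.sum_congr rfl fun s _ => ?_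
    rw [map_smul, Matrix.smul_apply, smul_eq_mul, hPapp, mul_comm]
  -- `Q P = lam`
  have hQP : Q * P = lam • (1 : Matrix ι ι A) := by
    ext k k'
    have h1 : (Q * P) k k' =
        (Φ.symm (Φ (Matrix.single k' i (1 : A)) * Matrix.single j j (1 : A))) k i := by
      rw [mul_single716, map_sum, Matrix.sum_apply, Matrix.mul_apply]
      refine Finset.sum_congr rfl fun l _ => ?_
      rw [map_smul, Matrix.smul_apply, smul_eq_mul, hQapp, hPapp, mul_comm]
    rw [h1, hmul', LinearEquiv.symm_apply_apply, Matrix.smul_apply, smul_eq_mul]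
    by_cases hk : k = k'
    · subst hk
      rw [Matrix.single_mul_apply_same, one_mul, Matrix.one_apply_eq, mul_one]
    · rw [Matrix.single_mul_apply_of_ne _ _ _ _ _ hk, Matrix.one_apply_ne hk, mul_zero]
  obtain ⟨u, hu⟩ := hj
  have hQ'P : ((↑u⁻¹ : A) • Q) * P = 1 := by
    rw [Matrix.smul_mul, hQP, smul_smul, ← hu, Units.inv_mul, one_smul]
  exact ⟨P, (↑u⁻¹ : A) • Q, mul_eq_one_comm.mp hQ'P, hQ'P, hP⟩

end SkolemNoether

section Main

variable {G : Type} [Monoid G] {A : Type} [CommRing A] [IsLocalRing A]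
  {ι : Type} [Fintype ι] [DecidableEq ι] [Nonempty ι]

/-- **Carayol rigidity, matrix form** (any local ring, any rank): two matrix representations with
the same traces, the first of which spans the full matrix algebra, are conjugate. -/
theorem carayol_matrix716 (m₁ m₂ : G →* Matrix ι ι A)
    (htr : ∀ g, (m₁ g).trace = (m₂ g).trace)
    (hspan : Submodule.span A (Set.range m₁) = ⊤) :
    ∃ P Q : Matrix ι ι A, P * Q = 1 ∧ Q * P = 1 ∧ ∀ g, Q * m₁ g * P = m₂ g := by
  obtain ⟨Φ, hΦ⟩ := exists_linearEquiv_of_trace_eq716 m₁ m₂ htr hspan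
  obtain ⟨hone, hmul⟩ := linearEquiv_mul_of_span716 m₁ m₂ hspan Φ hΦ
  obtain ⟨P, Q, hPQ, hQP, hP⟩ := skolemNoether716 Φ hone hmul
  refine ⟨Q, P, hQP, hPQ, fun g => ?_⟩
  rw [← hP, hΦ, Matrix.mul_assoc, hPQ, Matrix.mul_one]

end Main

end Fermat.Agent.S59.H716
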