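import Mathlib
import Fermat.Prelude.Def_GaloisRep_Adic
import Fermat.Agent.S31.H202.TraceRigid
import Fermat.Agent.S59.H307.GlueRep
import Fermat.Agent.S59.H716.CarayolCore

/-!
# General Carayol rigidity for `GaloisRepAdic` (helper716)

`isEquiv_of_trace_eq_absIrr` : over ANY local ring `A` (no hypothesis on `2`, no complex
conjugation), two representations `ρ₁ ρ₂ : GaloisRepAdic A` with the same traces are equivalent as
soon as the residual representation of `ρ₁` is absolutely irreducible.

This is the characteristic-free version of `Fermat.Agent.S59.H307.isEquiv_of_trace_eq`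
(which needs `IsUnit (2 : A)` and an involution of trace `0`).

Proof: Burnside + Nakayama (`Fermat.Agent.S31.H202.span_range_rho_eq_top`) and the matrix core
`carayol_matrix716` (Gram argument + Skolem–Noether over a local ring).
-/

set_option autoImplicit false

namespace Fermat.Agent.S59.H716

open Fermat.Agent.S59.H307

variable {A : Type} [CommRing A] [IsLocalRing A]

/-- The matrices of a residually absolutely irreducible representation span the matrix algebra. -/
theorem span_range_of_realizes716 {ρ : GaloisRepAdic A} {e : ρ.V ≃ₗ[A] (Fin 2 → A)}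
    {m : GalQ →* Matrix (Fin 2) (Fin 2) A} (h : Realizes ρ e m)
    (habs : ρ.residual.IsAbsolutelyIrreducible) :
    Submodule.span A (Set.range m) = ⊤ := by
  classical
  have h0 := Fermat.Agent.S31.H202.span_range_rho_eq_top ρ habs
  let L : Module.End A ρ.V ≃ₗ[A] Matrix (Fin 2) (Fin 2) A :=
    (e.conj).trans LinearMap.toMatrix'
  have hL : ∀ σ, L (ρ.ρ σ) = m σ := by
    intro σ
    show LinearMap.toMatrix' (e.conj (ρ.ρ σ)) = m σ
    rw [h.conj_eq, LinearMap.toMatrix'_toLin']
  have hrange : Set.range m = L '' Set.range ρ.ρ := by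
    ext M
    constructor
    · rintro ⟨σ, rfl⟩
      exact ⟨ρ.ρ σ, ⟨σ, rfl⟩, hL σ⟩
    · rintro ⟨_, ⟨σ, rfl⟩, rfl⟩
      exact ⟨σ, (hL σ).symm⟩
  have hmap : Submodule.map L.toLinearMap (Submodule.span A (Set.range ρ.ρ))
      = Submodule.span A (L '' Set.range ρ.ρ) := Submodule.map_span _ _
  rw [hrange, ← hmap, h0, Submodule.map_top, LinearMap.range_eq_top]
  exact L.surjective

/-- **Carayol rigidity, general form**: two representations over a local ring with the same
traces, one of them residually absolutely irreducible, are equivalent. -/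
theorem isEquiv_of_trace_eq_absIrr (ρ₁ ρ₂ : GaloisRepAdic A)
    (htr : ∀ σ, ρ₁.trace σ = ρ₂.trace σ)
    (habs : ρ₁.residual.IsAbsolutelyIrreducible) : ρ₁.IsEquiv ρ₂ := by
  classical
  obtain ⟨e₁, m₁, h₁⟩ := exists_realizes ρ₁
  obtain ⟨e₂, m₂, h₂⟩ := exists_realizes ρ₂
  have hspan := span_range_of_realizes716 h₁ habs
  obtain ⟨P, Q, hPQ, hQP, hconj⟩ := carayol_matrix716 m₁ m₂
    (fun g => by rw [← h₁.trace_eq, ← h₂.trace_eq, htr]) hspan
  have hr₁ := h₁.conj hPQ hQP
  have hfun : (fun σ => Q * m₁ σ * P) = fun σ => m₂ σ := funext hconj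
  rw [hfun] at hr₁
  exact isEquiv_of_realizes hr₁ h₂

/-- Symmetric form: the residually absolutely irreducible representation is the second one. -/
theorem isEquiv_of_trace_eq_absIrr' (ρ₁ ρ₂ : GaloisRepAdic A)
    (htr : ∀ σ, ρ₁.trace σ = ρ₂.trace σ)
    (habs : ρ₂.residual.IsAbsolutelyIrreducible) : ρ₁.IsEquiv ρ₂ := by
  obtain ⟨E⟩ := isEquiv_of_trace_eq_absIrr ρ₂ ρ₁ (fun σ => (htr σ).symm) habs
  exact ⟨E.symm⟩

/-- Variant with characteristic polynomials. -/
theorem isEquiv_of_charpoly_eq_absIrr (ρ₁ ρ₂ : GaloisRepAdic A)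
    (hcp : ∀ σ, LinearMap.charpoly (ρ₁.ρ σ) = LinearMap.charpoly (ρ₂.ρ σ))
    (habs : ρ₁.residual.IsAbsolutelyIrreducible) : ρ₁.IsEquiv ρ₂ := by
  classical
  obtain ⟨e₁, m₁, h₁⟩ := exists_realizes ρ₁
  obtain ⟨e₂, m₂, h₂⟩ := exists_realizes ρ₂
  refine isEquiv_of_trace_eq_absIrr ρ₁ ρ₂ (fun σ => ?_) habs
  have h := hcp σ
  rw [h₁.charpoly_eq, h₂.charpoly_eq] at h
  have h1 := congrArg (fun q : Polynomial A => q.coeff 1) h
  simp only [Polynomial.coeff_add, Polynomial.coeff_sub, Polynomial.coeff_X_pow,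
    Polynomial.coeff_C_mul, Polynomial.coeff_X_one, Polynomial.coeff_C] at h1
  rw [h₁.trace_eq, h₂.trace_eq]
  simpa using h1

end Fermat.Agent.S59.H716
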